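import Mathlib
import Fermat.Agent.Jac.BaseChange75.Rings
import Fermat.Agent.T1.CechFormal70.Defs

/-!
# TORIC leaf `hnzd` (helper87, for helper11 / helper50)

**(A)** `nzd_of_projOverLine`: let `O` be a discrete valuation ring, `R0` an `O`-algebra which is
projective as a module over the line `O[X]` (`X` acting through `t : R0`), and `R01 = R0[1/t]`.
Then every `v : R01` with `v - 1 ∈ 𝔪_O R01` is a non-zero-divisor of `R01`.

Proof: `v = (t^k + ϖ w₀)/t^k`; `X^k + C ϖ • (-)` is injective on a projective `O[X]`-module `M`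
because `M` is torsion free, `C ϖ` is prime in `O[X]` and does not divide `X^k`, and
`⋂ (C ϖ)^n M = 0` (retract of a free module over `O[X]`, where `⋂ (C ϖ)^n = 0`).

**(B)** `hnzd_of_finiteProjOverLine`: the corollary for the base change `O ⊗[W] -` of a two-chart
ring which is finite projective over the line.
-/

set_option autoImplicit false
set_option linter.unusedSectionVars false
set_option linter.style.haveILetI false

open Polynomial

namespace Fermat.Agent.T1B.Toric87

universe u

section Proj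

variable {S : Type*} [CommRing S] [IsDomain S] {M : Type*} [AddCommGroup M] [Module S M]

/-- A projective module is a retract of a free module. -/
theorem exists_retract (proj : Module.Projective S M) :
    ∃ (s : M →ₗ[S] (M →₀ S)) (r : (M →₀ S) →ₗ[S] M), ∀ m, r (s m) = m := by
  obtain ⟨s, hs⟩ := (Module.projective_def'.mp proj)
  exact ⟨s, Finsupp.linearCombination S id, fun m => LinearMap.congr_fun hs m⟩

/-- A projective module over a domain is torsion free. -/
theorem eq_zero_of_smul_eq_zero (proj : Module.Projective S M) {f : S} (hf : f ≠ 0) {m : M}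
    (h : f • m = 0) : m = 0 := by
  obtain ⟨s, r, hrs⟩ := exists_retract proj
  have h1 : f • s m = 0 := by rw [← map_smul, h, map_zero]
  have h2 : s m = 0 := by
    ext i
    have := DFunLike.congr_fun h1 i
    rw [Finsupp.smul_apply, smul_eq_mul, Finsupp.zero_apply] at this
    rw [Finsupp.zero_apply]
    exact (mul_eq_zero.mp this).resolve_left hf
  rw [← hrs m, h2, map_zero]

/-- Division by a prime element `p` in a projective module over a domain: if `q • m ∈ p • M` and
`p ∤ q` then `m ∈ p • M`. -/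
theorem exists_smul_eq_of_prime (proj : Module.Projective S M) {p q : S} (hp : Prime p)
    (hq : ¬ p ∣ q) {m z : M} (h : q • m = p • z) : ∃ u : M, m = p • u := by
  classical
  obtain ⟨s, r, hrs⟩ := exists_retract proj
  have h1 : q • s m = p • s z := by rw [← map_smul, h, map_smul]
  have hdvd : ∀ i, p ∣ s m i := by
    intro i
    have := DFunLike.congr_fun h1 i
    rw [Finsupp.smul_apply, Finsupp.smul_apply, smul_eq_mul, smul_eq_mul] at this
    have h2 : p ∣ q * s m i := ⟨_, this⟩
    exact (hp.dvd_or_dvd h2).resolve_left hq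
  -- divide coordinatewise
  let g : S → S := fun f => if h : p ∣ f then h.choose else 0
  have hg : ∀ f, p ∣ f → p * g f = f := by
    intro f hf
    simp only [g, dif_pos hf]
    exact hf.choose_spec.symm
  have hg0 : g 0 = 0 := by
    have := hg 0 (dvd_zero p)
    exact (mul_eq_zero.mp this).resolve_left hp.ne_zero
  let u' : M →₀ S := (s m).mapRange g hg0
  have hu' : s m = p • u' := by
    ext i
    rw [Finsupp.smul_apply, smul_eq_mul, Finsupp.mapRange_apply, hg _ (hdvd i)]
  refine ⟨r u', ?_⟩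
  rw [← map_smul, ← hu', hrs]

/-- An element of a projective module over a domain which is divisible by all powers of `p`,
where `⋂ (p^n) = 0` in `S`, is zero. -/
theorem eq_zero_of_forall_pow_smul (proj : Module.Projective S M) {p : S}
    (hp : ∀ f : S, (∀ n : ℕ, p ^ n ∣ f) → f = 0) {m : M}
    (h : ∀ n : ℕ, ∃ z : M, m = p ^ n • z) : m = 0 := by
  obtain ⟨s, r, hrs⟩ := exists_retract proj
  have h2 : s m = 0 := by
    ext i
    rw [Finsupp.zero_apply]
    refine hp _ fun n => ?_
    obtain ⟨z, hz⟩ := h n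
    rw [hz, map_smul, Finsupp.smul_apply, smul_eq_mul]
    exact dvd_mul_right _ _
  rw [← hrs m, h2, map_zero]

end Proj

section DVR

variable {O : Type*} [CommRing O] [IsDomain O] [IsDiscreteValuationRing O]

theorem prime_C_of_irreducible {ϖ : O} (hϖ : Irreducible ϖ) : Prime (C ϖ : O[X]) :=
  Polynomial.prime_C_iff.mpr hϖ.prime

theorem not_C_dvd_X_pow {ϖ : O} (hϖ : Irreducible ϖ) (k : ℕ) : ¬ (C ϖ : O[X]) ∣ X ^ k := by
  intro h
  have h1 := (Polynomial.C_dvd_iff_dvd_coeff ϖ (X ^ k)).mp h k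
  rw [Polynomial.coeff_X_pow, if_pos rfl] at h1
  exact hϖ.not_isUnit (isUnit_of_dvd_one h1)

theorem eq_zero_of_forall_pow_dvd {ϖ : O} (hϖ : Irreducible ϖ) {a : O}
    (h : ∀ n : ℕ, ϖ ^ n ∣ a) : a = 0 := by
  have hm : IsLocalRing.maximalIdeal O = Ideal.span {ϖ} := hϖ.maximalIdeal_eq
  have hne : IsLocalRing.maximalIdeal O ≠ ⊤ := Ideal.IsPrime.ne_top inferInstance
  have hinf := Ideal.iInf_pow_eq_bot_of_isLocalRing (IsLocalRing.maximalIdeal O) hne
  have hmem : a ∈ ⨅ i : ℕ, IsLocalRing.maximalIdeal O ^ i := by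
    rw [Ideal.mem_iInf]
    intro n
    rw [hm, Ideal.span_singleton_pow, Ideal.mem_span_singleton]
    exact h n
  rw [hinf] at hmem
  exact hmem

theorem poly_eq_zero_of_forall_pow_dvd {ϖ : O} (hϖ : Irreducible ϖ) {f : O[X]}
    (h : ∀ n : ℕ, (C ϖ : O[X]) ^ n ∣ f) : f = 0 := by
  ext i
  rw [Polynomial.coeff_zero]
  refine eq_zero_of_forall_pow_dvd hϖ fun n => ?_
  have := h n
  rw [← C_pow] at this
  exact (Polynomial.C_dvd_iff_dvd_coeff _ _).mp this i

end DVR

section Line

open Module (AEval)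

variable {O R0 : Type u} [CommRing O] [IsDomain O] [IsDiscreteValuationRing O] [CommRing R0]
  [Algebra O R0] (t : R0)

theorem C_smul_of (a : O) (y : R0) :
    (C a : O[X]) • AEval.of O R0 t y = AEval.of O R0 t (algebraMap O R0 a * y) := by
  rw [← AEval.of_aeval_smul, aeval_C, smul_eq_mul]

theorem C_pow_smul_of (a : O) (n : ℕ) (y : R0) :
    (C a : O[X]) ^ n • AEval.of O R0 t y = AEval.of O R0 t (algebraMap O R0 a ^ n * y) := by
  rw [← AEval.of_aeval_smul, map_pow, aeval_C, smul_eq_mul]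

theorem X_pow_smul_of (k : ℕ) (y : R0) :
    (X ^ k : O[X]) • AEval.of O R0 t y = AEval.of O R0 t (t ^ k * y) := by
  rw [← AEval.of_aeval_smul, map_pow, aeval_X, smul_eq_mul]

variable (proj : Module.Projective O[X] (AEval O R0 t)) {ϖ : O} (hϖ : Irreducible ϖ)

include proj hϖ

/-- (F1) `ϖ` is regular on `R0`. -/
theorem eq_zero_of_unif_mul_eq_zero {y : R0} (h : algebraMap O R0 ϖ * y = 0) : y = 0 := by
  have hC : (C ϖ : O[X]) ≠ 0 := by
    rw [Ne, C_eq_zero]
    exact hϖ.ne_zero
  have h1 : (C ϖ : O[X]) • AEval.of O R0 t y = 0 := by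
    rw [C_smul_of, h, map_zero]
  have := eq_zero_of_smul_eq_zero proj hC h1
  exact (AEval.of O R0 t).injective (by rw [this, map_zero])

/-- (F3) `t ^ k * y ∈ ϖ R0 ⇒ y ∈ ϖ R0`. -/
theorem exists_unif_mul_of_pow_mul {k : ℕ} {y z : R0}
    (h : t ^ k * y = algebraMap O R0 ϖ * z) : ∃ y₁ : R0, y = algebraMap O R0 ϖ * y₁ := by
  have h1 : (X ^ k : O[X]) • AEval.of O R0 t y = (C ϖ : O[X]) • AEval.of O R0 t z := by
    rw [X_pow_smul_of, C_smul_of, h]
  obtain ⟨u, hu⟩ := exists_smul_eq_of_prime proj (prime_C_of_irreducible hϖ)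
    (not_C_dvd_X_pow hϖ k) h1
  refine ⟨(AEval.of O R0 t).symm u, ?_⟩
  apply (AEval.of O R0 t).injective
  rw [hu, ← C_smul_of, LinearEquiv.apply_symm_apply]

/-- (F2) `⋂ ϖ^n R0 = 0`. -/
theorem eq_zero_of_forall_unif_pow {y : R0}
    (h : ∀ n : ℕ, ∃ z : R0, y = algebraMap O R0 ϖ ^ n * z) : y = 0 := by
  have h1 : AEval.of O R0 t y = 0 := by
    refine eq_zero_of_forall_pow_smul proj (p := (C ϖ : O[X]))
      (fun f hf => poly_eq_zero_of_forall_pow_dvd hϖ hf) fun n => ?_
    obtain ⟨z, hz⟩ := h n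
    exact ⟨AEval.of O R0 t z, by rw [C_pow_smul_of, hz]⟩
  exact (AEval.of O R0 t).injective (by rw [h1, map_zero])

/-- The key regularity statement: `t ^ k + ϖ w₀` is a non-zero-divisor of `R0`. -/
theorem eq_zero_of_mul_pow_add_eq_zero (k : ℕ) (w₀ : R0) :
    ∀ y : R0, y * (t ^ k + algebraMap O R0 ϖ * w₀) = 0 → y = 0 := by
  have key : ∀ n : ℕ, ∀ y : R0, y * (t ^ k + algebraMap O R0 ϖ * w₀) = 0 →
      ∃ z : R0, y = algebraMap O R0 ϖ ^ n * z := by
    intro n
    induction n with
    | zero => intro y _; exact ⟨y, by rw [pow_zero, one_mul]⟩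
    | succ n ih =>
      intro y hy
      have h1 : t ^ k * y = algebraMap O R0 ϖ * (-(w₀ * y)) := by
        have : t ^ k * y + algebraMap O R0 ϖ * (w₀ * y) = 0 := by
          rw [← hy]; ring
        rw [mul_neg, eq_neg_iff_add_eq_zero, this]
      obtain ⟨y₁, hy₁⟩ := exists_unif_mul_of_pow_mul t proj hϖ h1
      have h2 : algebraMap O R0 ϖ * (y₁ * (t ^ k + algebraMap O R0 ϖ * w₀)) = 0 := by
        rw [← mul_assoc, ← hy₁, hy]
      have h3 := eq_zero_of_unif_mul_eq_zero t proj hϖ h2
      obtain ⟨z, hz⟩ := ih y₁ h3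
      exact ⟨z, by rw [hy₁, hz, pow_succ]; ring⟩
  intro y hy
  exact eq_zero_of_forall_unif_pow t proj hϖ fun n => key n y hy

end Line

section Main

open Module (AEval)

variable {O R0 R01 : Type u} [CommRing O] [IsDomain O] [IsDiscreteValuationRing O]
  [CommRing R0] [CommRing R01] [Algebra O R0] [Algebra O R01] [Algebra R0 R01]
  [IsScalarTower O R0 R01]

/-- **(A)** One-units of `R0[1/t]` (with respect to the maximal ideal of the discrete valuation
ring `O`) are non-zero-divisors, as soon as `R0` is projective over the line `O[X]`, `X ↦ t`. -/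
theorem nzd_of_projOverLine (t : R0) (away : IsLocalization.Away t R01)
    (proj : Module.Projective O[X] (AEval O R0 t)) (v : R01)
    (hv : v - 1 ∈ (IsLocalRing.maximalIdeal O).map (algebraMap O R01)) :
    v ∈ nonZeroDivisors R01 := by
  haveI : IsLocalization (Submonoid.powers t) R01 := away
  obtain ⟨ϖ, hϖ⟩ := IsDiscreteValuationRing.exists_irreducible O
  -- `v = 1 + ϖ w`
  rw [hϖ.maximalIdeal_eq, Ideal.map_span, Set.image_singleton, Ideal.mem_span_singleton'] at hv
  obtain ⟨w, hw⟩ := hv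
  -- `w = w₀ / t^k`
  obtain ⟨⟨w₀, ⟨_, k, rfl⟩⟩, hw₀⟩ := IsLocalization.surj (Submonoid.powers t) w
  simp only at hw₀
  have hϖ01 : algebraMap O R01 ϖ = algebraMap R0 R01 (algebraMap O R0 ϖ) :=
    IsScalarTower.algebraMap_apply O R0 R01 ϖ
  have hvk : v * algebraMap R0 R01 (t ^ k) =
      algebraMap R0 R01 (t ^ k + algebraMap O R0 ϖ * w₀) := by
    have hv' : v = 1 + w * algebraMap O R01 ϖ := by rw [hw]; ring
    rw [hv', map_add, map_mul, ← hw₀, hϖ01]
    ring
  have hunit : ∀ n : ℕ, IsUnit (algebraMap R0 R01 (t ^ n)) := fun n =>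
    IsLocalization.map_units R01 (⟨t ^ n, n, rfl⟩ : Submonoid.powers t)
  rw [mem_nonZeroDivisors_iff_right]
  intro x hx
  -- `x = x₀ / t^l`
  obtain ⟨⟨x₀, ⟨_, l, rfl⟩⟩, hx₀⟩ := IsLocalization.surj (Submonoid.powers t) x
  simp only at hx₀
  have h0 : algebraMap R0 R01 (x₀ * (t ^ k + algebraMap O R0 ϖ * w₀)) = 0 := by
    rw [map_mul, ← hx₀, ← hvk]
    calc x * algebraMap R0 R01 (t ^ l) * (v * algebraMap R0 R01 (t ^ k))
        = (x * v) * (algebraMap R0 R01 (t ^ l) * algebraMap R0 R01 (t ^ k)) := by ring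
      _ = 0 := by rw [hx, zero_mul]
  obtain ⟨⟨_, m, rfl⟩, hm⟩ := (IsLocalization.map_eq_zero_iff (Submonoid.powers t) R01 _).mp h0
  simp only at hm
  have hy : (t ^ m * x₀) * (t ^ k + algebraMap O R0 ϖ * w₀) = 0 := by
    rw [mul_assoc]; exact hm
  have hy0 := eq_zero_of_mul_pow_add_eq_zero t proj hϖ k w₀ _ hy
  have h1 : algebraMap R0 R01 (t ^ m) * algebraMap R0 R01 x₀ = 0 := by
    rw [← map_mul, hy0, map_zero]
  have h2 : algebraMap R0 R01 x₀ = 0 := (hunit m).mul_right_eq_zero.mp h1
  rw [h2] at hx₀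
  exact (hunit l).mul_left_eq_zero.mp hx₀

end Main

section Corollary

open TensorProduct
open scoped Fermat.Agent.Jac.BaseChange75
open Fermat.Agent.Jac Fermat.Agent.T1.CechFormal70

variable {W B0 B1 B01 : Type u} [CommRing W] [CommRing B0] [CommRing B1] [CommRing B01]
  [Algebra W B0] [Algebra W B1] [Algebra W B01] [Algebra B0 B01] [Algebra B1 B01]
  [IsScalarTower W B0 B01] [IsScalarTower W B1 B01]

/-- **(B)** For a two-chart ring `c0` over `W` which is finite projective over the line, and a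
discrete valuation ring `O` over `W`, the one-units of `O ⊗[W] B01` (with respect to `𝔪_O`) are
non-zero-divisors. -/
theorem hnzd_of_finiteProjOverLine (c0 : TwoChart W B0 B1 B01) (hfp : c0.FiniteProjOverLine)
    (O : Type u) [CommRing O] [IsDomain O] [IsDiscreteValuationRing O] [Algebra W O] :
    ∀ v : O ⊗[W] B01, v - 1 ∈ eI (IsLocalRing.maximalIdeal O) (O ⊗[W] B01) →
      v ∈ nonZeroDivisors (O ⊗[W] B01) :=
  fun v hv => nzd_of_projOverLine (c0.baseChange O).t (c0.baseChange O).away0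
    (hfp.baseChange O).proj0 v hv

end Corollary

end Fermat.Agent.T1B.Toric87
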