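/-
TORIC leaf (c) for helper50 (helper87): the CONVERSE KRONECKER ITEMS.

`ModelN4.KronItems` says: for every `x` in the level-`M'` chart there is `c` in the chart with
`α x ≡ (β c)^q mod π O2` (and `β x ≡ (α c)^q mod π O1`); there `c = g_ψ x` for the coefficientwise
action `g_ψ` of an inverse Frobenius `ψ` on `K`.  Since `g_ψ` is BIJECTIVE on the charts (its inverse
is `g_{ψ⁻¹}`, and `ψ⁻¹` preserves `A ∩ K` as well: `symm_mem_of_frobInv`), the converse holds:

  `KronConvItems` : for every `c` in the chart there is `x` in the chart with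
  `α x - (β c)^q ∈ π O2`, resp. `β x - (α c)^q ∈ π O1` (both charts).

Suppliers: `kronConvItems_at` (`K` normal over `ℚ`), `kronConvItems_at_of_isInertial` (`K` inertial),
with the same hypotheses as `KronItems15.kronItems_at` / `KronInert27.kronItems_at_of_isInertial`.
-/
import Mathlib
import Fermat.Agent.ES.P36.KronInert27

set_option autoImplicit false
set_option linter.unusedSectionVars false
set_option synthInstance.maxHeartbeats 400000

noncomputable section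

open HahnSeries ModularCurve

namespace Fermat.Agent.T1B.Toric87.KronConv

open Fermat.Agent.RED.Interface4 Fermat.Agent.RED.PUR.GaussGen8 Fermat.Agent.RED.PUR.G1Package8
  Fermat.Agent.RED.DESC
  Fermat.Agent.RED.BASE.EtaQuot12 Fermat.Agent.RED.PUR.ChartGeneric22
  Fermat.Agent.ES.N34.FrickeFK8 Fermat.Agent.ES.N34.ModelDefs9 Fermat.Agent.ES.N34.ModelN4
  Fermat.Agent.ES.N34.KronChart15 Fermat.Agent.ES.N34.KronN14 Fermat.Agent.ES.N34.KronItems15
  Fermat.Agent.ES.N34.FrickeV11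
  Fermat.Agent.ES.P36.InertField27

/-- If a field automorphism `ψ` maps the valuation ring `O` into itself and is the inverse of a
Frobenius modulo the maximal ideal (`res (ψ x) ^ q = res x`), then `ψ⁻¹` maps `O` into itself. -/
theorem symm_mem_of_frobInv {K : Type*} [Field K] (O : ValuationSubring K) (q : ℕ)
    (ψ : K ≃+* K) (hψO : ∀ x ∈ O, ψ x ∈ O)
    (hψ : ∀ x : ↥O, IsLocalRing.residue ↥O ⟨ψ (x : K), hψO x x.2⟩ ^ q = IsLocalRing.residue ↥O x) :
    ∀ x ∈ O, ψ.symm x ∈ O := by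
  intro x hx
  by_contra hy
  set y : K := ψ.symm x with hydef
  have hy0 : y ≠ 0 := by
    intro h0
    exact hy (h0 ▸ O.zero_mem)
  have hyinv : y⁻¹ ∈ O := (O.mem_or_inv_mem y).resolve_left hy
  set z : ↥O := ⟨y⁻¹, hyinv⟩ with hz
  -- `z` is not a unit
  have hzn : ¬ IsUnit z := by
    intro hu
    obtain ⟨w, hw⟩ := hu.exists_right_inv
    have h1 : (y⁻¹ : K) * (w : K) = 1 := by
      have := congrArg (Subtype.val) hw
      simpa [hz] using this
    have h2 : (w : K) = y := by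
      field_simp at h1
      exact h1.symm ▸ rfl
    exact hy (h2 ▸ w.2)
  have hres : IsLocalRing.residue ↥O z = 0 := by
    rw [IsLocalRing.residue_eq_zero_iff]
    exact (IsLocalRing.mem_maximalIdeal z).mpr hzn
  have h3 := hψ z
  rw [hres] at h3
  have h4 : IsLocalRing.residue ↥O ⟨ψ (z : K), hψO z z.2⟩ = 0 := eq_zero_of_pow_eq_zero h3
  rw [IsLocalRing.residue_eq_zero_iff] at h4
  have h5 : ¬ IsUnit (⟨ψ (z : K), hψO z z.2⟩ : ↥O) := (IsLocalRing.mem_maximalIdeal _).mp h4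
  apply h5
  have hx0 : x ≠ 0 := by
    intro h0
    apply hy0
    rw [hydef, h0, map_zero]
  have hψz : ψ (z : K) = x⁻¹ := by
    show ψ (y⁻¹) = x⁻¹
    rw [map_inv₀, hydef, RingEquiv.apply_symm_apply]
  refine IsUnit.of_mul_eq_one (⟨x, hx⟩ : ↥O) ?_
  apply Subtype.ext
  show ψ (z : K) * x = 1
  rw [hψz, inv_mul_cancel₀ hx0]

section Chart

variable {A : ValuationSubring Qbar} {K : IntermediateField ℚ Qbar} (M' q : ℕ) [NeZero M'] [NeZero q]

/-- `g_ψ ∘ g_{ψ⁻¹} = id` on `F_{M'}`. -/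
theorem gpsi_gpsi_symm (ψ : K ≃ₐ[ℚ] K) (c : FK M' K) :
    arithmeticRingAut (modularFunctionFieldFull M') ψ
      (arithmeticRingAut (modularFunctionFieldFull M') ψ.symm c) = c := by
  have h : arithmeticRingAut (modularFunctionFieldFull M') ψ.symm c =
      (arithmeticRingAut (modularFunctionFieldFull M') ψ).symm c := Subtype.ext rfl
  rw [h, RingEquiv.apply_symm_apply]

variable [hq : Fact q.Prime] [CharP (Res (AK A K)) q]

variable {n e : ℕ} [NeZero n]

variable {π : ↥(AK A K)} (hπ : IsUnif (AK A K) π) (hE : FK (M' * q) K ≤ fracField (AK A K))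
  (ψ : K ≃ₐ[ℚ] K) (hψO : ∀ x ∈ AK A K, ((ψ : K ≃ₐ[ℚ] K) : K →+* K) x ∈ AK A K)
  (hψ : ∀ x : ↥(AK A K),
    res0 (AK A K) (restrictO (AK A K) ((ψ : K ≃ₐ[ℚ] K) : K →+* K) hψO x) ^ q = res0 (AK A K) x)

include hψ in
/-- The Frobenius `ψ⁻¹` preserves `A ∩ K` as well. -/
theorem symm_mem_AK :
    ∀ x ∈ AK A K, ((ψ.symm : K ≃ₐ[ℚ] K) : K →+* K) x ∈ AK A K :=
  fun x hx => symm_mem_of_frobInv (AK A K) q ψ.toRingEquiv hψO hψ x hx

include hψ in
/-- **Converse of `hKalpha_B0M`**: every `c` in the chart is hit, `α x ≡ (β c)^q mod π O2`. -/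
theorem hKalphaConv_B0M (ht : tq (↥K) n e ∈ FK M' K)
    (hle : ∀ b ∈ B0M A ht, (b : LaurentSeries K) ∈ gaussRing (AK A K))
    (hiso : ∀ x : FK M' K, (x : LaurentSeries K) ∈ gaussRing (AK A K) →
      ((frickeFK M' K x : FK M' K) : LaurentSeries K) ∈ gaussRing (AK A K)) :
    ∀ c : ↥(B0M A ht), ∃ x : ↥(B0M A ht), ∃ o ∈ O2 M' q hπ hE,
      alpha K M' q (x : FK M' K) - (beta K M' q (c : FK M' K)) ^ q =
        algebraMap ↥(AK A K) ↥(FK (M' * q) K) π * o := by
  intro c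
  have hb : arithmeticRingAut (modularFunctionFieldFull M') ψ.symm (c : FK M' K) ∈ B0M A ht :=
    gpsi_mem_B0M M' ψ.symm (symm_mem_AK q ψ hψO hψ) ht c.2
  obtain ⟨o, ho, h⟩ := kron_two' M' q hπ hE ψ hψO hψ _ (hiso _ (hle _ hb))
  rw [gpsi_gpsi_symm] at h
  exact ⟨⟨_, hb⟩, o, ho, h⟩

include hψ in
/-- **Converse of `hKbeta_B0M`**: `β x ≡ (α c)^q mod π O1`. -/
theorem hKbetaConv_B0M (ht : tq (↥K) n e ∈ FK M' K)
    (hle : ∀ b ∈ B0M A ht, (b : LaurentSeries K) ∈ gaussRing (AK A K)) :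
    ∀ c : ↥(B0M A ht), ∃ x : ↥(B0M A ht), ∃ o ∈ O1 M' q hπ hE,
      beta K M' q (x : FK M' K) - (alpha K M' q (c : FK M' K)) ^ q =
        algebraMap ↥(AK A K) ↥(FK (M' * q) K) π * o := by
  intro c
  have hb : arithmeticRingAut (modularFunctionFieldFull M') ψ.symm (c : FK M' K) ∈ B0M A ht :=
    gpsi_mem_B0M M' ψ.symm (symm_mem_AK q ψ hψO hψ) ht c.2
  obtain ⟨o, ho, h⟩ := kron_one M' q hπ hE ψ hψO hψ _ (hle _ hb)
  rw [gpsi_gpsi_symm] at h
  exact ⟨⟨_, hb⟩, o, ho, h⟩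

include hψ in
/-- **Converse of `hKalpha_B1M`**. -/
theorem hKalphaConv_B1M (ht : tq (↥K) n e ∈ FK M' K)
    (hle : ∀ b ∈ B1M A ht, (b : LaurentSeries K) ∈ gaussRing (AK A K))
    (hiso : ∀ x : FK M' K, (x : LaurentSeries K) ∈ gaussRing (AK A K) →
      ((frickeFK M' K x : FK M' K) : LaurentSeries K) ∈ gaussRing (AK A K)) :
    ∀ c : ↥(B1M A ht), ∃ x : ↥(B1M A ht), ∃ o ∈ O2 M' q hπ hE,
      alpha K M' q (x : FK M' K) - (beta K M' q (c : FK M' K)) ^ q =
        algebraMap ↥(AK A K) ↥(FK (M' * q) K) π * o := by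
  intro c
  have hb : arithmeticRingAut (modularFunctionFieldFull M') ψ.symm (c : FK M' K) ∈ B1M A ht :=
    gpsi_mem_B1M M' ψ.symm (symm_mem_AK q ψ hψO hψ) ht c.2
  obtain ⟨o, ho, h⟩ := kron_two' M' q hπ hE ψ hψO hψ _ (hiso _ (hle _ hb))
  rw [gpsi_gpsi_symm] at h
  exact ⟨⟨_, hb⟩, o, ho, h⟩

include hψ in
/-- **Converse of `hKbeta_B1M`**. -/
theorem hKbetaConv_B1M (ht : tq (↥K) n e ∈ FK M' K)
    (hle : ∀ b ∈ B1M A ht, (b : LaurentSeries K) ∈ gaussRing (AK A K)) :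
    ∀ c : ↥(B1M A ht), ∃ x : ↥(B1M A ht), ∃ o ∈ O1 M' q hπ hE,
      beta K M' q (x : FK M' K) - (alpha K M' q (c : FK M' K)) ^ q =
        algebraMap ↥(AK A K) ↥(FK (M' * q) K) π * o := by
  intro c
  have hb : arithmeticRingAut (modularFunctionFieldFull M') ψ.symm (c : FK M' K) ∈ B1M A ht :=
    gpsi_mem_B1M M' ψ.symm (symm_mem_AK q ψ hψO hψ) ht c.2
  obtain ⟨o, ho, h⟩ := kron_one M' q hπ hE ψ hψO hψ _ (hle _ hb)
  rw [gpsi_gpsi_symm] at h
  exact ⟨⟨_, hb⟩, o, ho, h⟩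

end Chart

section Items

variable (n e q M' : ℕ) [NeZero n] [NeZero M'] [NeZero q] (A : ValuationSubring Qbar)
  (K : IntermediateField ℚ Qbar)

set_option maxHeartbeats 1600000 in
/-- The CONVERSE Kronecker congruences in chart form (twin of `ModelN4.KronItems` with the roles of
`x` and `c` exchanged): every `c` in the level-`M'` chart is, modulo `π O_j`, a `q`-th root of the
image of some `x` of the chart. -/
def KronConvItems : Prop :=
  ∀ (ht : tq (↥K) n e ∈ FK M' K) (hE : FK (M' * q) K ≤ fracField (AK A K))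
    (π : ↥(AK A K)) (hπ : IsUnif (AK A K) π),
    (∀ c : ↥(B0M A ht), ∃ x : ↥(B0M A ht), ∃ o ∈ O2 M' q hπ hE,
      alpha K M' q (x : ↥(FK M' K)) - (beta K M' q (c : ↥(FK M' K))) ^ q =
        algebraMap ↥(AK A K) ↥(FK (M' * q) K) π * o) ∧
    (∀ c : ↥(B0M A ht), ∃ x : ↥(B0M A ht), ∃ o ∈ O1 M' q hπ hE,
      beta K M' q (x : ↥(FK M' K)) - (alpha K M' q (c : ↥(FK M' K))) ^ q =
        algebraMap ↥(AK A K) ↥(FK (M' * q) K) π * o) ∧
    (∀ c : ↥(B1M A ht), ∃ x : ↥(B1M A ht), ∃ o ∈ O2 M' q hπ hE,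
      alpha K M' q (x : ↥(FK M' K)) - (beta K M' q (c : ↥(FK M' K))) ^ q =
        algebraMap ↥(AK A K) ↥(FK (M' * q) K) π * o) ∧
    (∀ c : ↥(B1M A ht), ∃ x : ↥(B1M A ht), ∃ o ∈ O1 M' q hπ hE,
      beta K M' q (x : ↥(FK M' K)) - (alpha K M' q (c : ↥(FK M' K))) ^ q =
        algebraMap ↥(AK A K) ↥(FK (M' * q) K) π * o)

end Items

variable {A : ValuationSubring Qbar} {K : IntermediateField ℚ Qbar} {M' : ℕ} [NeZero M']
  {n e : ℕ} [NeZero n]

/-- **Converse Kronecker items at one normal number field `K`** (twin of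
`KronItems15.kronItems_at`). -/
theorem kronConvItems_at {q : ℕ} [NeZero q] [Normal ℚ K] [FiniteDimensional ℚ K] (hq : q.Prime)
    (hqM : ¬ q ∣ M') (hA : A.LiesOverPrime q) : KronConvItems n e q M' A K := by
  intro ht hE π hπ
  have hdvr : IsDiscreteValuationRing ↥(AK A K) :=
    Fermat.Agent.RED.DESC.NumberFieldDVR27.isDiscreteValuationRing_AK A K hq.ne_zero hA
  have hirr : Irreducible π := (IsDiscreteValuationRing.irreducible_iff_uniformizer π).mpr hπ.max_eq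
  have : Fact q.Prime := ⟨hq⟩
  have : CharP (Res (AK A K)) q := charP_res A K q hq hA
  obtain ⟨ψ, hψO, hψ⟩ := exists_frobInv A K q hq hA
  have hiso : ∀ x : FK M' K, (x : LaurentSeries K) ∈ gaussRing (AK A K) →
      ((frickeFK M' K x : FK M' K) : LaurentSeries K) ∈ gaussRing (AK A K) :=
    fun x hx => (Fermat.Agent.ES.N34.IsoM25.isoM A K M' q hirr hqM x).mp hx
  exact ⟨hKalphaConv_B0M M' q hπ hE ψ hψO hψ ht (le_B0M hirr ht) hiso,
    hKbetaConv_B0M M' q hπ hE ψ hψO hψ ht (le_B0M hirr ht),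
    hKalphaConv_B1M M' q hπ hE ψ hψO hψ ht (le_B1M hirr ht) hiso,
    hKbetaConv_B1M M' q hπ hE ψ hψO hψ ht (le_B1M hirr ht)⟩

/-- **Converse Kronecker items at one INERTIAL number field `K`** (twin of
`KronInert27.kronItems_at_of_isInertial`). -/
theorem kronConvItems_at_of_isInertial {q : ℕ} [NeZero q] [FiniteDimensional ℚ K]
    (hK : IsInertial A K) (hq : q.Prime) (hqM : ¬ q ∣ M') (hA : A.LiesOverPrime q) :
    KronConvItems n e q M' A K := by
  intro ht hE π hπ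
  have hdvr : IsDiscreteValuationRing ↥(AK A K) :=
    Fermat.Agent.RED.DESC.NumberFieldDVR27.isDiscreteValuationRing_AK A K hq.ne_zero hA
  have hirr : Irreducible π := (IsDiscreteValuationRing.irreducible_iff_uniformizer π).mpr hπ.max_eq
  have : Fact q.Prime := ⟨hq⟩
  have : CharP (Res (AK A K)) q := NumberFieldDVR27.charP_residueField_AK A K hq hA
  obtain ⟨ψ, hψO, hψ⟩ := exists_frobInv_of_isInertial hK q hq hA
  have hiso : ∀ x : FK M' K, (x : LaurentSeries K) ∈ gaussRing (AK A K) →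
      ((frickeFK M' K x : FK M' K) : LaurentSeries K) ∈ gaussRing (AK A K) :=
    fun x hx => (Fermat.Agent.ES.N34.IsoM25.isoM A K M' q hirr hqM x).mp hx
  exact ⟨hKalphaConv_B0M M' q hπ hE ψ hψO hψ ht (le_B0M hirr ht) hiso,
    hKbetaConv_B0M M' q hπ hE ψ hψO hψ ht (le_B0M hirr ht),
    hKalphaConv_B1M M' q hπ hE ψ hψO hψ ht (le_B1M hirr ht) hiso,
    hKbetaConv_B1M M' q hπ hE ψ hψO hψ ht (le_B1M hirr ht)⟩

/-- `Large` form (normal fields), twin of `KronItems15.kronItems`. -/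
theorem kronConvItems {q : ℕ} [NeZero q] (hq : q.Prime) (hqM : ¬ q ∣ M')
    (hA : A.LiesOverPrime q) : Large (KronConvItems n e q M' A) :=
  ⟨⊥, inferInstance, fun K _ hfd _ => by have := hfd; exact kronConvItems_at hq hqM hA⟩

end Fermat.Agent.T1B.Toric87.KronConv
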