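/-
TORIC leaf (helper87, for helper84 / helper50): ES → `W`-level ADAPTER for NODE-FIBRE.

On the concrete nodal model of `ES/N34/ModelDefs9` (`R = A ∩ K`, `F = FK (M' q) K`, charts `B0`, `B1`,
level-`M'` charts `B0M`, `B1M`, Gauss rings `O1`, `O2`), the model facts in ITEMS shape —
`SurjModel15.SurjItems` (surjectivity onto the branches) and `KronConv.KronConvItems` (converse
Kronecker congruences) — give helper84's `Norm84.Iota.RadHyp` at every node, for BOTH degeneracy maps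
and both charts (`Norm84/ModelRad.radHyp0_model`, `radHyp0_model'`, `radHyp1_model`, `radHyp1_model'`).

`α_j β_j : ↥(B_jM) →ₐ[R] ↥(B_j)` are arbitrary algebra homs whose underlying maps are `alpha`, `beta`
(helper99's `Malpha.α_j`, `Mbeta.α_j` plug in).
-/
import Mathlib
import Fermat.Agent.T1B.Toric87.KronConv
import Fermat.Agent.ES.N35.SurjModel15
import Fermat.Agent.T1B.Norm84.ModelRad

set_option autoImplicit false
set_option linter.unusedSectionVars false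
set_option synthInstance.maxHeartbeats 400000

noncomputable section

open HahnSeries ModularCurve

namespace Fermat.Agent.T1B.Toric87.RadItems

open Fermat.Agent.RED.Interface4 Fermat.Agent.RED.PUR.GaussGen8 Fermat.Agent.RED.BASE.EtaQuot12
  Fermat.Agent.ES.N34.ModelDefs9 Fermat.Agent.ES.N34.ModelN4
  Fermat.Agent.ES.N35.SurjModel15 Fermat.Agent.T1B.Toric87.KronConv
  Fermat.Agent.T1.CechFormal70 Fermat.Agent.T1B.Toric98
  Fermat.Agent.T1B.NodeNF37.ToricBaseInst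

variable {n e q M' : ℕ} [NeZero n] [NeZero M'] [NeZero q] {A : ValuationSubring Qbar}
  {K : IntermediateField ℚ Qbar}

set_option maxHeartbeats 1600000 in
/-- **`RadHyp` at the nodes, chart `0`, both degeneracy maps**, from `SurjItems` and
`KronConvItems`. -/
theorem radHyp_chart0_of_items (hS : SurjItems n e q M' A K) (hC : KronConvItems n e q M' A K)
    (hq : 0 < q) (ht : tq (↥K) n e ∈ FK M' K) (hE : FK (M' * q) K ≤ fracField (AK A K))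
    (π : ↥(AK A K)) (hπ : IsUnif (AK A K) π)
    (Hy : Hyp π (tN q ht) (B0 A q ht) (B1 A q ht) (O1 M' q hπ hE) (O2 M' q hπ hE))
    {g : ℕ} (D : CechData ↥(AK A K) ↥(B0 A q ht) ↥(B1 A q ht) ↥(B0 A q ht ⊔ B1 A q ht) g)
    (hρ0 : D.ρ0 = Fermat.Agent.T1.ModelCoh30.ρ0 (B0 A q ht) (B1 A q ht))
    {En : Type*} {κ : Type*} [Field κ] [Algebra ↥(AK A K) κ]
    (FD : FibreDatum π D.ρ0 D.ρ1 En κ) (hP : FD.P = Hy.P) (hQ : FD.Q = Hy.Q)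
    (hπκ : algebraMap ↥(AK A K) κ π = 0)
    (α0 β0 : ↥(B0M A ht) →ₐ[↥(AK A K)] ↥(B0 A q ht))
    (hα0 : ∀ b : ↥(B0M A ht),
      ((α0 b : ↥(B0 A q ht)) : ↥(FK (M' * q) K)) = alpha K M' q (b : ↥(FK M' K)))
    (hβ0 : ∀ b : ↥(B0M A ht),
      ((β0 b : ↥(B0 A q ht)) : ↥(FK (M' * q) K)) = beta K M' q (b : ↥(FK M' K)))
    (e : En) :
    Norm84.Iota.RadHyp α0 ((FD.ev e).comp D.ρ0) ∧
      Norm84.Iota.RadHyp β0 ((FD.ev e).comp D.ρ0) := by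
  obtain ⟨s1, s2, -, -⟩ := hS ht hE π hπ
  obtain ⟨c1, c2, -, -⟩ := hC ht hE π hπ
  have hS1 : ∀ y : ↥(B0 A q ht), ∃ b : ↥(B0M A ht), ∃ c ∈ O1 M' q hπ hE,
      (y : ↥(FK (M' * q) K)) - ((α0 b : ↥(B0 A q ht)) : ↥(FK (M' * q) K)) =
        algebraMap ↥(AK A K) ↥(FK (M' * q) K) π * c := by
    intro y
    obtain ⟨b, c, hc, h⟩ := s1 y y.2
    exact ⟨b, c, hc, by rw [hα0]; exact h⟩
  have hS2 : ∀ y : ↥(B0 A q ht), ∃ b : ↥(B0M A ht), ∃ c ∈ O2 M' q hπ hE,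
      (y : ↥(FK (M' * q) K)) - ((β0 b : ↥(B0 A q ht)) : ↥(FK (M' * q) K)) =
        algebraMap ↥(AK A K) ↥(FK (M' * q) K) π * c := by
    intro y
    obtain ⟨b, c, hc, h⟩ := s2 y y.2
    exact ⟨b, c, hc, by rw [hβ0]; exact h⟩
  have hCK : ∀ b : ↥(B0M A ht), ∃ a : ↥(B0M A ht), ∃ o ∈ O2 M' q hπ hE,
      ((α0 a : ↥(B0 A q ht)) : ↥(FK (M' * q) K)) - ((β0 b : ↥(B0 A q ht)) : ↥(FK (M' * q) K)) ^ q =
        algebraMap ↥(AK A K) ↥(FK (M' * q) K) π * o := by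
    intro b
    obtain ⟨a, o, ho, h⟩ := c1 b
    exact ⟨a, o, ho, by rw [hα0, hβ0]; exact h⟩
  have hCK' : ∀ b : ↥(B0M A ht), ∃ a : ↥(B0M A ht), ∃ o ∈ O1 M' q hπ hE,
      ((β0 a : ↥(B0 A q ht)) : ↥(FK (M' * q) K)) - ((α0 b : ↥(B0 A q ht)) : ↥(FK (M' * q) K)) ^ q =
        algebraMap ↥(AK A K) ↥(FK (M' * q) K) π * o := by
    intro b
    obtain ⟨a, o, ho, h⟩ := c2 b
    exact ⟨a, o, ho, by rw [hα0, hβ0]; exact h⟩
  exact ⟨Norm84.Iota.radHyp0_model Hy D hρ0 FD hP hQ hπκ α0 β0 hS1 hS2 q hq hCK e,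
    Norm84.Iota.radHyp0_model' Hy D hρ0 FD hP hQ hπκ α0 β0 hS1 hS2 q hq hCK' e⟩

set_option maxHeartbeats 1600000 in
/-- **`RadHyp` at the nodes, chart `1`, both degeneracy maps**, from `SurjItems` and
`KronConvItems`. -/
theorem radHyp_chart1_of_items (hS : SurjItems n e q M' A K) (hC : KronConvItems n e q M' A K)
    (hq : 0 < q) (ht : tq (↥K) n e ∈ FK M' K) (hE : FK (M' * q) K ≤ fracField (AK A K))
    (π : ↥(AK A K)) (hπ : IsUnif (AK A K) π)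
    (Hy : Hyp π (tN q ht) (B0 A q ht) (B1 A q ht) (O1 M' q hπ hE) (O2 M' q hπ hE))
    {g : ℕ} (D : CechData ↥(AK A K) ↥(B0 A q ht) ↥(B1 A q ht) ↥(B0 A q ht ⊔ B1 A q ht) g)
    (hρ1 : D.ρ1 = Fermat.Agent.T1.ModelCoh30.ρ1 (B0 A q ht) (B1 A q ht))
    {En : Type*} {κ : Type*} [Field κ] [Algebra ↥(AK A K) κ]
    (FD : FibreDatum π D.ρ0 D.ρ1 En κ) (hP : FD.P = Hy.P) (hQ : FD.Q = Hy.Q)
    (hπκ : algebraMap ↥(AK A K) κ π = 0)
    (α1 β1 : ↥(B1M A ht) →ₐ[↥(AK A K)] ↥(B1 A q ht))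
    (hα1 : ∀ b : ↥(B1M A ht),
      ((α1 b : ↥(B1 A q ht)) : ↥(FK (M' * q) K)) = alpha K M' q (b : ↥(FK M' K)))
    (hβ1 : ∀ b : ↥(B1M A ht),
      ((β1 b : ↥(B1 A q ht)) : ↥(FK (M' * q) K)) = beta K M' q (b : ↥(FK M' K)))
    (e : En) :
    Norm84.Iota.RadHyp α1 ((FD.ev e).comp D.ρ1) ∧
      Norm84.Iota.RadHyp β1 ((FD.ev e).comp D.ρ1) := by
  obtain ⟨-, -, s1, s2⟩ := hS ht hE π hπ
  obtain ⟨-, -, c1, c2⟩ := hC ht hE π hπ
  have hS1 : ∀ y : ↥(B1 A q ht), ∃ b : ↥(B1M A ht), ∃ c ∈ O1 M' q hπ hE,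
      (y : ↥(FK (M' * q) K)) - ((α1 b : ↥(B1 A q ht)) : ↥(FK (M' * q) K)) =
        algebraMap ↥(AK A K) ↥(FK (M' * q) K) π * c := by
    intro y
    obtain ⟨b, c, hc, h⟩ := s1 y y.2
    exact ⟨b, c, hc, by rw [hα1]; exact h⟩
  have hS2 : ∀ y : ↥(B1 A q ht), ∃ b : ↥(B1M A ht), ∃ c ∈ O2 M' q hπ hE,
      (y : ↥(FK (M' * q) K)) - ((β1 b : ↥(B1 A q ht)) : ↥(FK (M' * q) K)) =
        algebraMap ↥(AK A K) ↥(FK (M' * q) K) π * c := by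
    intro y
    obtain ⟨b, c, hc, h⟩ := s2 y y.2
    exact ⟨b, c, hc, by rw [hβ1]; exact h⟩
  have hCK : ∀ b : ↥(B1M A ht), ∃ a : ↥(B1M A ht), ∃ o ∈ O2 M' q hπ hE,
      ((α1 a : ↥(B1 A q ht)) : ↥(FK (M' * q) K)) - ((β1 b : ↥(B1 A q ht)) : ↥(FK (M' * q) K)) ^ q =
        algebraMap ↥(AK A K) ↥(FK (M' * q) K) π * o := by
    intro b
    obtain ⟨a, o, ho, h⟩ := c1 b
    exact ⟨a, o, ho, by rw [hα1, hβ1]; exact h⟩
  have hCK' : ∀ b : ↥(B1M A ht), ∃ a : ↥(B1M A ht), ∃ o ∈ O1 M' q hπ hE,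
      ((β1 a : ↥(B1 A q ht)) : ↥(FK (M' * q) K)) - ((α1 b : ↥(B1 A q ht)) : ↥(FK (M' * q) K)) ^ q =
        algebraMap ↥(AK A K) ↥(FK (M' * q) K) π * o := by
    intro b
    obtain ⟨a, o, ho, h⟩ := c2 b
    exact ⟨a, o, ho, by rw [hα1, hβ1]; exact h⟩
  exact ⟨Norm84.Iota.radHyp1_model Hy D hρ1 FD hP hQ hπκ α1 β1 hS1 hS2 q hq hCK e,
    Norm84.Iota.radHyp1_model' Hy D hρ1 FD hP hQ hπκ α1 β1 hS1 hS2 q hq hCK' e⟩

end Fermat.Agent.T1B.Toric87.RadItems
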